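import Fermat.Agent.Lib.RR.H623.WeakApprox

/-!
# A2 (helper189): the moving lemma for divisor classes

Every divisor (class) can be moved away from a given finite set of places by a principal divisor
(weak approximation `Lib.RR.H623.weak_approximation`, on main).

* `exists_move` : `D` a divisor, `s` a finite set of places: there is `z ≠ 0` with
  `ord_v z = - D v` for all `v ∈ s`.
* `exists_divisor_avoiding` : with `HasPrincipalDivisors`: a divisor `E = div z` of degree `0` with
  `(D + E) v = 0` for `v ∈ s`.
* `exists_rep_avoiding` : every class `x : Pic0 K F` has a representative `D` (of degree `0`) with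
  `D v = 0` for all `v ∈ s`.
* `exists_kummer_avoiding` : Kummer form: if `m • D = div f` then there are `D'`, `f' = f * z ^ m`
  with `m • D' = div f'`, `D' - D = div z` and `D'` avoids `s`.

Use in cell A2 (route S): represent a torsion class by a divisor avoiding the (finitely many)
"bad" sections through the crossing points (helper673, `section_unique_of_bad`); inertia fixes the
bad sections, so `τ D`, `τ² D` avoid them as well.
-/

set_option autoImplicit false

namespace Fermat.Agent.A2.H189

open AlgebraicCurve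

variable {K F : Type*} [Field K] [Field F] [Algebra K F]

/-- A function with prescribed orders `- D v` on a finite set of places. -/
theorem exists_move (D : Divisor K F) (s : Finset (Place K F)) :
    ∃ z : F, z ≠ 0 ∧ ∀ v ∈ s, v.ord z = - D v := by
  classical
  by_cases hs : s = ∅
  · subst hs
    exact ⟨1, one_ne_zero, by simp⟩
  obtain ⟨z, hz⟩ := Fermat.Agent.Lib.RR.H623.weak_approximation s (fun _ => (0 : F))
    (fun v => - D v)
  obtain ⟨v₀, hv₀⟩ := Finset.nonempty_iff_ne_empty.mpr hs
  refine ⟨z, ?_, fun v hv => ?_⟩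
  · have := (hz v₀ hv₀).1
    simpa using this
  · have := (hz v hv).2
    simpa using this

/-- Moving lemma, divisor form. -/
theorem exists_divisor_avoiding [HasPrincipalDivisors K F] (D : Divisor K F)
    (s : Finset (Place K F)) :
    ∃ (z : F) (E : Divisor K F), z ≠ 0 ∧ (∀ v, E v = v.ord z) ∧ Divisor.degree E = 0 ∧
      ∀ v ∈ s, (D + E) v = 0 := by
  obtain ⟨z, hz0, hz⟩ := exists_move D s
  obtain ⟨E, hE, hdeg⟩ := HasPrincipalDivisors.exists_divisor (K := K) z hz0
  refine ⟨z, E, hz0, hE, hdeg, fun v hv => ?_⟩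
  rw [Finsupp.add_apply, hE v, hz v hv]
  ring

/-- **Moving lemma** for `Pic0`: every class has a representative avoiding a given finite set of
places. -/
theorem exists_rep_avoiding [HasPrincipalDivisors K F] (x : Pic0 K F) (s : Finset (Place K F)) :
    ∃ D : Divisor.degZero (K := K) (F := F), Pic0.mk D = x ∧
      ∀ v ∈ s, (D : Divisor K F) v = 0 := by
  obtain ⟨D₀, rfl⟩ := Pic0.mk_surjective x
  obtain ⟨z, E, hz0, hE, hdeg, hav⟩ := exists_divisor_avoiding (D₀ : Divisor K F) s
  have hE0 : E ∈ Divisor.degZero (K := K) (F := F) := Divisor.mem_degZero.mpr hdeg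
  refine ⟨D₀ + ⟨E, hE0⟩, ?_, fun v hv => ?_⟩
  · rw [Pic0.mk_add]
    have : Pic0.mk (⟨E, hE0⟩ : Divisor.degZero (K := K) (F := F)) = 0 := by
      unfold Pic0.mk
      rw [QuotientAddGroup.eq_zero_iff, AddSubgroup.mem_addSubgroupOf]
      exact ⟨z, hz0, hE⟩
    rw [this, add_zero]
  · exact hav v hv

/-- Moving lemma, Kummer form: a pair `(D, f)` with `m • D = div f` can be replaced by
`(D + div z, f * z ^ m)` with `D + div z` avoiding `s`. -/
theorem exists_kummer_avoiding [HasPrincipalDivisors K F] (m : ℕ) (D : Divisor K F) (f : F)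
    (hf : f ≠ 0) (hD : ∀ v : Place K F, (m : ℤ) * D v = v.ord f) (s : Finset (Place K F)) :
    ∃ (z : F) (D' : Divisor K F), z ≠ 0 ∧ (∀ v, D' v = D v + v.ord z) ∧
      (∀ v : Place K F, (m : ℤ) * D' v = v.ord (f * z ^ m)) ∧ ∀ v ∈ s, D' v = 0 := by
  obtain ⟨z, E, hz0, hE, -, hav⟩ := exists_divisor_avoiding D s
  refine ⟨z, D + E, hz0, fun v => by rw [Finsupp.add_apply, hE v], fun v => ?_, hav⟩
  have hzm : z ^ m ≠ 0 := pow_ne_zero m hz0
  have hpow : v.ord (z ^ m) = (m : ℤ) * v.ord z := by
    have := v.ord_zpow z (m : ℤ)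
    rwa [zpow_natCast] at this
  rw [v.ord_mul hf hzm, hpow, Finsupp.add_apply, hE v, mul_add, hD v]

end Fermat.Agent.A2.H189
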