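import Mathlib

/-!
# A2 (helper189): local algebra at a node / smooth point of a model — Mathlib only

Setting: `O` a domain (in applications a DVR `O'` with uniformiser `π`), `R` a noetherian local
`O`-algebra (local ring of the normal model at a closed point `P̄` of the special fibre),
`ev : R →ₐ[O] O` an `O`-point of `Spec R` (evaluation at an `O`-rational place centred at `P̄`).

* `ker_eval_eq` : if `I ≤ ker ev` and `𝔪_R ≤ I + (π)` then `ker ev = I`  (no completion needed:
  Krull's intersection theorem in `R`).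
* `ker_eval_node` : node `𝔪_R = (S, T, π)` : `ker ev = (S - a, T - b)`, `a = ev S`, `b = ev T`.
* `ker_eval_smooth` : smooth point `𝔪_R = (S, π)` : `ker ev = (S - a)`.
* `eval_eq_of_node` : if moreover `S * T = c` is a nonzero CONSTANT, an `O`-point is determined by its
  `S`-coordinate (so `S - a` has exactly one zero among the `O`-places centred at the node).
* `node_uniformizer_identity` : `a * (T - b) = -T * (S - a)`; hence `S - a` generates `ker ev` wherever
  `a` is invertible (= at the generic point of the horizontal prime).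
* `node_step`, `node_normal_form_or` : the FINITE normal form iteration inside `R` itself (no power
  series): from `S * T = ℓ * G` one gets, for every `n`, either `S' * T' = ℓ ^ k * unit` with `k ≤ n`
  or `S' * T' ∈ (ℓ ^ (n + 1))`, with `S' ≡ S`, `T' ≡ T` mod `ℓ`.
-/

set_option autoImplicit false

namespace Fermat.Agent.A2.H189

open IsLocalRing

section Eval

variable {O R : Type*} [CommRing O] [IsDomain O] [CommRing R] [IsLocalRing R] [IsNoetherianRing R]
  [Algebra O R]

theorem ker_eval_le_maximalIdeal (ev : R →ₐ[O] O) :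
    RingHom.ker (ev : R →+* O) ≤ maximalIdeal R := by
  apply IsLocalRing.le_maximalIdeal
  rw [Ne, Ideal.eq_top_iff_one, RingHom.mem_ker]
  simp

theorem algebraMap_mem_maximalIdeal (ev : R →ₐ[O] O) {π : O} (hπu : ¬ IsUnit π) :
    algebraMap O R π ∈ maximalIdeal R := by
  rw [IsLocalRing.mem_maximalIdeal, mem_nonunits_iff]
  intro hu
  apply hπu
  have := hu.map (ev : R →+* O)
  simpa using this

/-- The evaluation of a non-unit is a non-unit (a section of a local algebra is a local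
homomorphism). -/
theorem eval_not_isUnit (ev : R →ₐ[O] O) {s : R} (hs : s ∈ maximalIdeal R) : ¬ IsUnit (ev s) := by
  intro hu
  have h1 : s - algebraMap O R (ev s) ∈ maximalIdeal R :=
    ker_eval_le_maximalIdeal ev (by rw [RingHom.mem_ker]; simp)
  have h2 : algebraMap O R (ev s) ∈ maximalIdeal R := by
    have := (maximalIdeal R).sub_mem hs h1
    simpa using this
  rw [IsLocalRing.mem_maximalIdeal, mem_nonunits_iff] at h2
  exact h2 (hu.map (algebraMap O R))

/-- **Lemma A.** If `I ≤ ker ev` and `𝔪_R ≤ I + (π)`, `π` a nonzero non-unit of `O`, then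
`ker ev = I`. -/
theorem ker_eval_eq (π : O) (hπ : π ≠ 0) (hπu : ¬ IsUnit π) (ev : R →ₐ[O] O) (I : Ideal R)
    (hI : I ≤ RingHom.ker (ev : R →+* O))
    (hm : maximalIdeal R ≤ I ⊔ Ideal.span {algebraMap O R π}) :
    RingHom.ker (ev : R →+* O) = I := by
  refine le_antisymm ?_ hI
  have hπm : algebraMap O R π ∈ maximalIdeal R := algebraMap_mem_maximalIdeal ev hπu
  -- Step 1: `ker ev ≤ I + (π ^ n)` for every `n`.
  have key : ∀ n : ℕ, ∀ x ∈ RingHom.ker (ev : R →+* O),
      ∃ i ∈ I, ∃ r : R, x = i + algebraMap O R π ^ n * r := by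
    intro n
    induction n with
    | zero => intro x _; exact ⟨0, I.zero_mem, x, by simp⟩
    | succ n ih =>
      intro x hx
      obtain ⟨i, hi, r, hr⟩ := ih x hx
      have hevr : ev r = 0 := by
        have h1 : ev x = 0 := hx
        have h2 : ev i = 0 := hI hi
        rw [hr, map_add, map_mul, map_pow, h2, zero_add] at h1
        have h3 : ev (algebraMap O R π) = π := by simp
        rw [h3] at h1
        exact (mul_eq_zero.mp h1).resolve_left (pow_ne_zero n hπ)
      have hrm : r ∈ I ⊔ Ideal.span {algebraMap O R π} :=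
        hm (ker_eval_le_maximalIdeal ev hevr)
      obtain ⟨i', hi', z, hz, hsum⟩ := Submodule.mem_sup.mp hrm
      obtain ⟨r', hr'⟩ := Ideal.mem_span_singleton'.mp hz
      refine ⟨i + algebraMap O R π ^ n * i', I.add_mem hi (I.mul_mem_left _ hi'), r', ?_⟩
      rw [hr, ← hsum, ← hr']
      ring
  -- Step 2: Krull's intersection theorem in `R ⧸ I`.
  intro x hx
  have hne : (Ideal.span {algebraMap O R π} : Ideal R) ≠ ⊤ := by
    intro h
    have : (1 : R) ∈ maximalIdeal R := by
      have h1 : (1 : R) ∈ Ideal.span {algebraMap O R π} := by rw [h]; trivial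
      exact ((Ideal.span_singleton_le_iff_mem _).mpr hπm) h1
    exact (Ideal.ne_top_iff_one _).mp (maximalIdeal.isMaximal R).ne_top this
  have hkrull := Ideal.iInf_pow_smul_eq_bot_of_isLocalRing
    (I := Ideal.span {algebraMap O R π}) (M := R ⧸ I) hne
  have hmem : (Ideal.Quotient.mk I x : R ⧸ I) ∈
      (⨅ n : ℕ, (Ideal.span {algebraMap O R π}) ^ n • (⊤ : Submodule R (R ⧸ I))) := by
    rw [Submodule.mem_iInf]
    intro n
    obtain ⟨i, hi, r, hr⟩ := key n x hx
    have h1 : (Ideal.Quotient.mk I x : R ⧸ I)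
        = (algebraMap O R π ^ n) • (Ideal.Quotient.mk I r : R ⧸ I) := by
      rw [hr, map_add, Ideal.Quotient.eq_zero_iff_mem.mpr hi, zero_add, map_mul]
      rfl
    rw [h1]
    refine Submodule.smul_mem_smul ?_ Submodule.mem_top
    exact Ideal.pow_mem_pow (Ideal.mem_span_singleton_self _) n
  rw [hkrull, Submodule.mem_bot] at hmem
  exact Ideal.Quotient.eq_zero_iff_mem.mp hmem

/-- **Node**: if `𝔪_R = (S, T, π)` then the kernel of an `O`-point is `(S - a, T - b)`. -/
theorem ker_eval_node (π : O) (hπ : π ≠ 0) (hπmax : ∀ z : O, ¬ IsUnit z → π ∣ z)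
    (hπu : ¬ IsUnit π) (ev : R →ₐ[O] O) (S T : R)
    (hm : maximalIdeal R = Ideal.span {S, T, algebraMap O R π}) :
    RingHom.ker (ev : R →+* O)
      = Ideal.span {S - algebraMap O R (ev S), T - algebraMap O R (ev T)} := by
  have hS : S ∈ maximalIdeal R := by rw [hm]; exact Ideal.subset_span (by simp)
  have hT : T ∈ maximalIdeal R := by rw [hm]; exact Ideal.subset_span (by simp)
  obtain ⟨a', ha'⟩ := hπmax _ (eval_not_isUnit ev hS)
  obtain ⟨b', hb'⟩ := hπmax _ (eval_not_isUnit ev hT)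
  apply ker_eval_eq π hπ hπu ev
  · rw [Ideal.span_le]
    rintro x (rfl | rfl)
    · rw [SetLike.mem_coe, RingHom.mem_ker]; simp
    · rw [SetLike.mem_coe, RingHom.mem_ker]; simp
  · rw [hm, Ideal.span_le]
    rintro x (rfl | rfl | rfl)
    · have : x = (x - algebraMap O R (ev x)) + algebraMap O R π * algebraMap O R a' := by
        rw [← map_mul, ← ha']; ring
      rw [SetLike.mem_coe, this]
      exact Ideal.add_mem _ (Ideal.mem_sup_left (Ideal.subset_span (by simp)))
        (Ideal.mem_sup_right (Ideal.mul_mem_right _ _ (Ideal.mem_span_singleton_self _)))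
    · have : x = (x - algebraMap O R (ev x)) + algebraMap O R π * algebraMap O R b' := by
        rw [← map_mul, ← hb']; ring
      rw [SetLike.mem_coe, this]
      exact Ideal.add_mem _ (Ideal.mem_sup_left (Ideal.subset_span (by simp)))
        (Ideal.mem_sup_right (Ideal.mul_mem_right _ _ (Ideal.mem_span_singleton_self _)))
    · exact Ideal.mem_sup_right (Ideal.mem_span_singleton_self _)

/-- **Smooth point**: if `𝔪_R = (S, π)` then the kernel of an `O`-point is `(S - a)`. -/
theorem ker_eval_smooth (π : O) (hπ : π ≠ 0) (hπmax : ∀ z : O, ¬ IsUnit z → π ∣ z)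
    (hπu : ¬ IsUnit π) (ev : R →ₐ[O] O) (S : R)
    (hm : maximalIdeal R = Ideal.span {S, algebraMap O R π}) :
    RingHom.ker (ev : R →+* O) = Ideal.span {S - algebraMap O R (ev S)} := by
  have hS : S ∈ maximalIdeal R := by rw [hm]; exact Ideal.subset_span (by simp)
  obtain ⟨a', ha'⟩ := hπmax _ (eval_not_isUnit ev hS)
  apply ker_eval_eq π hπ hπu ev
  · rw [Ideal.span_le]
    rintro x rfl
    rw [SetLike.mem_coe, RingHom.mem_ker]; simp
  · rw [hm, Ideal.span_le]
    rintro x (rfl | rfl)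
    · have : x = (x - algebraMap O R (ev x)) + algebraMap O R π * algebraMap O R a' := by
        rw [← map_mul, ← ha']; ring
      rw [SetLike.mem_coe, this]
      exact Ideal.add_mem _ (Ideal.mem_sup_left (Ideal.subset_span (by simp)))
        (Ideal.mem_sup_right (Ideal.mul_mem_right _ _ (Ideal.mem_span_singleton_self _)))
    · exact Ideal.mem_sup_right (Ideal.mem_span_singleton_self _)

/-- Two `O`-points with the same kernel are equal. -/
theorem eval_eq_of_ker_le (ev ev' : R →ₐ[O] O)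
    (h : RingHom.ker (ev : R →+* O) ≤ RingHom.ker (ev' : R →+* O)) : ev' = ev := by
  ext x
  have h1 : x - algebraMap O R (ev x) ∈ RingHom.ker (ev : R →+* O) := by
    rw [RingHom.mem_ker]; simp
  have h2 := h h1
  rw [RingHom.mem_ker] at h2
  have h3 : ev' x - ev x = 0 := by simpa using h2
  exact sub_eq_zero.mp h3

/-- **Uniqueness at a node with constant product**: if `S * T = c ≠ 0` is constant, an `O`-point of
the node is determined by its `S`-coordinate. -/
theorem eval_eq_of_node (π : O) (hπ : π ≠ 0) (hπmax : ∀ z : O, ¬ IsUnit z → π ∣ z)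
    (hπu : ¬ IsUnit π) (ev ev' : R →ₐ[O] O) (S T : R) (c : O) (hc : c ≠ 0)
    (hST : S * T = algebraMap O R c)
    (hm : maximalIdeal R = Ideal.span {S, T, algebraMap O R π})
    (hS : ev' S = ev S) : ev' = ev := by
  have h1 : ev S * ev T = c := by rw [← map_mul, hST]; simp
  have h2 : ev' S * ev' T = c := by rw [← map_mul, hST]; simp
  have hS0 : ev S ≠ 0 := by
    intro h0; rw [h0, zero_mul] at h1; exact hc h1.symm
  have hT : ev' T = ev T := by
    rw [hS, ← h1] at h2
    exact mul_left_cancel₀ hS0 h2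
  apply eval_eq_of_ker_le
  rw [ker_eval_node π hπ hπmax hπu ev S T hm, Ideal.span_le]
  rintro x (rfl | rfl)
  · rw [SetLike.mem_coe, RingHom.mem_ker]; simp [hS]
  · rw [SetLike.mem_coe, RingHom.mem_ker]; simp [hT]

/-- At the generic point of the horizontal prime `ker ev` (where the constant `a = ev S ≠ 0` is
invertible), `S - a` alone generates: `a (T - b) = - T (S - a)`. -/
theorem node_uniformizer_identity (ev : R →ₐ[O] O) (S T : R) (c : O)
    (hST : S * T = algebraMap O R c) :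
    algebraMap O R (ev S) * (T - algebraMap O R (ev T))
      = - T * (S - algebraMap O R (ev S)) := by
  have h1 : ev S * ev T = c := by rw [← map_mul, hST]; simp
  have h2 : algebraMap O R (ev S) * algebraMap O R (ev T) = S * T := by
    rw [← map_mul, h1, hST]
  linear_combination (-1 : R) * h2

end Eval

section NormalForm

variable {R : Type*} [CommRing R] [IsLocalRing R]

/-- One step of the normal form iteration: if `S T = ℓ^(n+1) G` with `G` a non-unit and
`𝔪 = (S, T, ℓ)`, then `S' T' = ℓ^(n+2) G'` with `S' ≡ S`, `T' ≡ T` mod `ℓ^(n+1)`. -/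
theorem node_step (ℓ S T G : R) (n : ℕ)
    (hm : maximalIdeal R = Ideal.span {S, T, ℓ})
    (h : S * T = ℓ ^ (n + 1) * G) (hG : ¬ IsUnit G) :
    ∃ S' T' G' : R, (∃ β, S' = S - ℓ ^ (n + 1) * β) ∧ (∃ α, T' = T - ℓ ^ (n + 1) * α) ∧
      S' * T' = ℓ ^ (n + 2) * G' ∧ maximalIdeal R = Ideal.span {S', T', ℓ} := by
  have hGm : G ∈ maximalIdeal R := by
    rw [IsLocalRing.mem_maximalIdeal, mem_nonunits_iff]; exact hG
  rw [hm] at hGm
  obtain ⟨α, β, γ, hαβγ⟩ : ∃ α β γ : R, G = α * S + β * T + γ * ℓ := by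
    rw [Ideal.mem_span_insert] at hGm
    obtain ⟨a, z, hz, rfl⟩ := hGm
    rw [Ideal.mem_span_insert] at hz
    obtain ⟨b, z', hz', rfl⟩ := hz
    obtain ⟨c, rfl⟩ := Ideal.mem_span_singleton'.mp hz'
    exact ⟨a, b, c, by ring⟩
  refine ⟨S - ℓ ^ (n + 1) * β, T - ℓ ^ (n + 1) * α, γ + ℓ ^ n * (α * β), ⟨β, rfl⟩, ⟨α, rfl⟩, ?_, ?_⟩
  · have : (S - ℓ ^ (n + 1) * β) * (T - ℓ ^ (n + 1) * α)
        = S * T - ℓ ^ (n + 1) * (α * S + β * T) + ℓ ^ (n + 1) * ℓ ^ (n + 1) * (α * β) := by ring
    rw [this, h, hαβγ]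
    ring
  · rw [hm]
    have e1 : S = (S - ℓ ^ (n + 1) * β) + (ℓ ^ n * β) * ℓ := by ring
    have e2 : T = (T - ℓ ^ (n + 1) * α) + (ℓ ^ n * α) * ℓ := by ring
    have e3 : S - ℓ ^ (n + 1) * β = S - (ℓ ^ n * β) * ℓ := by ring
    have e4 : T - ℓ ^ (n + 1) * α = T - (ℓ ^ n * α) * ℓ := by ring
    have hS' : S ∈ Ideal.span {S - ℓ ^ (n + 1) * β, T - ℓ ^ (n + 1) * α, ℓ} := by
      have h1 : (S - ℓ ^ (n + 1) * β) + (ℓ ^ n * β) * ℓ ∈
          Ideal.span {S - ℓ ^ (n + 1) * β, T - ℓ ^ (n + 1) * α, ℓ} :=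
        Ideal.add_mem _ (Ideal.subset_span (by simp))
          (Ideal.mul_mem_left _ _ (Ideal.subset_span (by simp)))
      rwa [← e1] at h1
    have hT' : T ∈ Ideal.span {S - ℓ ^ (n + 1) * β, T - ℓ ^ (n + 1) * α, ℓ} := by
      have h1 : (T - ℓ ^ (n + 1) * α) + (ℓ ^ n * α) * ℓ ∈
          Ideal.span {S - ℓ ^ (n + 1) * β, T - ℓ ^ (n + 1) * α, ℓ} :=
        Ideal.add_mem _ (Ideal.subset_span (by simp))
          (Ideal.mul_mem_left _ _ (Ideal.subset_span (by simp)))
      rwa [← e2] at h1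
    have hS'' : S - ℓ ^ (n + 1) * β ∈ Ideal.span {S, T, ℓ} := by
      rw [e3]
      exact Ideal.sub_mem _ (Ideal.subset_span (by simp))
        (Ideal.mul_mem_left _ _ (Ideal.subset_span (by simp)))
    have hT'' : T - ℓ ^ (n + 1) * α ∈ Ideal.span {S, T, ℓ} := by
      rw [e4]
      exact Ideal.sub_mem _ (Ideal.subset_span (by simp))
        (Ideal.mul_mem_left _ _ (Ideal.subset_span (by simp)))
    apply le_antisymm
    · rw [Ideal.span_le]
      intro x hx
      simp only [Set.mem_insert_iff, Set.mem_singleton_iff] at hx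
      rcases hx with rfl | rfl | rfl
      · exact hS'
      · exact hT'
      · exact Ideal.subset_span (by simp)
    · rw [Ideal.span_le]
      intro x hx
      simp only [Set.mem_insert_iff, Set.mem_singleton_iff] at hx
      rcases hx with rfl | rfl | rfl
      · exact hS''
      · exact hT''
      · exact Ideal.subset_span (by simp)

/-- **Finite normal form** inside `R`: starting from `S T = ℓ G`, for every `n` either the node has
thickness `k ≤ n + 1` (`S' T' = ℓ^k · unit`) or `S' T' ∈ (ℓ^(n+2))`, with `S' ≡ S`, `T' ≡ T` mod `ℓ`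
and `𝔪 = (S', T', ℓ)`. -/
theorem node_normal_form_or (ℓ S T G : R) (hm : maximalIdeal R = Ideal.span {S, T, ℓ})
    (h : S * T = ℓ * G) (n : ℕ) :
    ∃ S' T' G' : R, (∃ β, S' = S - ℓ * β) ∧ (∃ α, T' = T - ℓ * α) ∧
      maximalIdeal R = Ideal.span {S', T', ℓ} ∧
      ((∃ k, k ≤ n ∧ S' * T' = ℓ ^ (k + 1) * G' ∧ IsUnit G') ∨ S' * T' = ℓ ^ (n + 2) * G') := by
  induction n with
  | zero =>
    by_cases hG : IsUnit G
    · exact ⟨S, T, G, ⟨0, by simp⟩, ⟨0, by simp⟩, hm, Or.inl ⟨0, le_rfl, by simpa using h, hG⟩⟩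
    · obtain ⟨S', T', G', ⟨β, hβ⟩, ⟨α, hα⟩, h', hm'⟩ :=
        node_step ℓ S T G 0 hm (by simpa using h) hG
      exact ⟨S', T', G', ⟨β, by simpa using hβ⟩, ⟨α, by simpa using hα⟩, hm', Or.inr h'⟩
  | succ n ih =>
    obtain ⟨S₁, T₁, G₁, ⟨β₁, hβ₁⟩, ⟨α₁, hα₁⟩, hm₁, hcase⟩ := ih
    rcases hcase with ⟨k, hk, hprod, hu⟩ | hprod
    · exact ⟨S₁, T₁, G₁, ⟨β₁, hβ₁⟩, ⟨α₁, hα₁⟩, hm₁, Or.inl ⟨k, by omega, hprod, hu⟩⟩
    · by_cases hG : IsUnit G₁
      · exact ⟨S₁, T₁, G₁, ⟨β₁, hβ₁⟩, ⟨α₁, hα₁⟩, hm₁, Or.inl ⟨n + 1, le_rfl, hprod, hu_of hG⟩⟩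
      · obtain ⟨S', T', G', ⟨β, hβ⟩, ⟨α, hα⟩, h', hm'⟩ :=
          node_step ℓ S₁ T₁ G₁ (n + 1) hm₁ hprod hG
        refine ⟨S', T', G', ⟨β₁ + ℓ ^ (n + 1) * β, ?_⟩, ⟨α₁ + ℓ ^ (n + 1) * α, ?_⟩, hm',
          Or.inr h'⟩
        · rw [hβ, hβ₁]; ring
        · rw [hα, hα₁]; ring
where
  hu_of {G₁ : R} (h : IsUnit G₁) : IsUnit G₁ := h

end NormalForm

end Fermat.Agent.A2.H189
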